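import Fermat.Agent.S26.H445.UFDPowerSeries
import Fermat.Agent.S26.H626.FormalChartSmooth
import Fermat.Agent.S26.H925.UFDDescent

/-!
# S26 / leaf UFD / U4 : local rings of smooth algebras are unique factorisation domains
(helper445, assembly of U1 (H445), U2 (H626), U3 (H925))

`K` algebraically closed, `B` a smooth `K`-algebra, `m` a maximal ideal of `B`, `R = B_m`.
Then `R` is a UFD; in particular every prime ideal of height one of `R` is principal.
-/

set_option autoImplicit false

universe u

open IsLocalRing

namespace Fermat.Agent.S26.H445

/-- **U4.** The local ring of a smooth algebra over an algebraically closed field at a maximal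
ideal is a unique factorisation domain. -/
theorem ufd_of_smooth_localization (K : Type u) [Field K] [IsAlgClosed K] (B : Type u)
    [CommRing B] [Algebra K B] [Algebra.Smooth K B] (m : Ideal B) [m.IsMaximal] (R : Type u)
    [CommRing R] [Algebra B R] [IsLocalization.AtPrime R m] :
    IsDomain R ∧ UniqueFactorizationMonoid R := by
  have : IsLocalRing R := IsLocalization.AtPrime.isLocalRing R m
  have : IsNoetherianRing B := Algebra.FiniteType.isNoetherianRing K B
  have : IsNoetherianRing R := IsLocalization.isNoetherianRing m.primeCompl R inferInstance
  obtain ⟨g, τ, h1, h2⟩ := Fermat.Agent.S26.H626.exists_formalChart_of_smooth K B m R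
  have : IsDomain (MvPowerSeries (Fin g) K) := NoZeroDivisors.to_isDomain _
  have : UniqueFactorizationMonoid (MvPowerSeries (Fin g) K) :=
    uniqueFactorizationMonoid_mvPowerSeries_fin K g
  exact Fermat.Agent.S26.H925.ufd_of_chart τ h1 h2

/-- **U4, corollary.** Every prime ideal of height one of the local ring of a smooth algebra
over an algebraically closed field at a maximal ideal is principal. -/
theorem isPrincipal_of_height_eq_one (K : Type u) [Field K] [IsAlgClosed K] (B : Type u)
    [CommRing B] [Algebra K B] [Algebra.Smooth K B] (m : Ideal B) [m.IsMaximal] (R : Type u)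
    [CommRing R] [Algebra B R] [IsLocalization.AtPrime R m]
    (P : Ideal R) [P.IsPrime] (hP : P.height = 1) : P.IsPrincipal := by
  obtain ⟨hdom, hufd⟩ := ufd_of_smooth_localization K B m R
  exact Fermat.Agent.S26.H925.isPrincipal_of_height_eq_one_of_ufd P hP

end Fermat.Agent.S26.H445
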