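import Mathlib

/-!
# S26 / leaf UFD : a localisation of a unique factorisation domain is one (helper445)

Mathlib-only.  Via Kaplansky's criterion.
-/

set_option autoImplicit false

namespace Fermat.Agent.S26.H445

/-- A localisation of a unique factorisation domain at a submonoid of nonzero elements is a
unique factorisation domain. -/
theorem ufd_of_isLocalization {R : Type*} [CommRing R] [IsDomain R]
    [UniqueFactorizationMonoid R] (M : Submonoid R) (hM : M ≤ nonZeroDivisors R)
    (S : Type*) [CommRing S] [Algebra R S] [IsLocalization M S] :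
    IsDomain S ∧ UniqueFactorizationMonoid S := by
  have hdom : IsDomain S := IsLocalization.isDomain_of_le_nonZeroDivisors S hM
  refine ⟨hdom, ?_⟩
  apply UniqueFactorizationMonoid.iff_exists_prime_mem_of_isPrime.2
  intro Q hQ0 hQ
  have hP : (Q.comap (algebraMap R S)).IsPrime := Ideal.comap_isPrime _ _
  have hP0 : Q.comap (algebraMap R S) ≠ ⊥ := by
    intro h
    apply hQ0
    have h' : Q.under R = ⊥ := h
    rw [← IsLocalization.map_under M S Q, h', Ideal.map_bot]
  obtain ⟨p, hpP, hp⟩ := hP.exists_mem_prime_of_ne_bot hP0
  have hinj : Function.Injective (algebraMap R S) := IsLocalization.injective S hM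
  have hp0 : algebraMap R S p ≠ 0 := fun h =>
    hp.ne_zero (hinj (h.trans (map_zero _).symm))
  refine ⟨algebraMap R S p, hpP, ?_⟩
  have hdisj : Disjoint (M : Set R) ((Ideal.span {p} : Ideal R) : Set R) := by
    rw [Set.disjoint_left]
    intro x hxM hxp
    have hxP : x ∈ Q.comap (algebraMap R S) :=
      (Ideal.span_singleton_le_iff_mem _).2 hpP hxp
    exact hQ.ne_top (Q.eq_top_of_isUnit_mem hxP (IsLocalization.map_units S ⟨x, hxM⟩))
  have hprime := IsLocalization.isPrime_of_isPrime_disjoint M S (Ideal.span {p})
    ((Ideal.span_singleton_prime hp.ne_zero).2 hp) hdisj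
  rw [Ideal.map_span, Set.image_singleton] at hprime
  exact (Ideal.span_singleton_prime hp0).1 hprime

/-- The localisation of a unique factorisation domain at a prime ideal is a unique
factorisation domain. -/
theorem ufd_of_isLocalization_atPrime {R : Type*} [CommRing R] [IsDomain R]
    [UniqueFactorizationMonoid R] (P : Ideal R) [P.IsPrime]
    (S : Type*) [CommRing S] [Algebra R S] [IsLocalization.AtPrime S P] :
    IsDomain S ∧ UniqueFactorizationMonoid S :=
  ufd_of_isLocalization P.primeCompl P.primeCompl_le_nonZeroDivisors S

end Fermat.Agent.S26.H445
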