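import Mathlib

/-!
# S26 / leaf UFD / U1 : `K⟦x₁, …, x_g⟧` is a unique factorisation domain (helper445)

For an infinite field `K`, the ring of formal power series in finitely many variables over `K`
is a UFD.  Proof by induction on the number of variables via Weierstrass preparation:

* (α) `K⟦x₁, …, x_n⟧` is complete for its maximal ideal;
* (β) over a complete local UFD `A`, an irreducible `g ∈ A⟦X⟧` that is nonzero modulo the
  maximal ideal of `A` is prime (Weierstrass preparation + Gauss);
* (γ) a linear change of variables makes any nonzero series regular in `x₀`;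
* (δ) induction.
-/

set_option autoImplicit false

universe u

open IsLocalRing

namespace Fermat.Agent.S26.H445

section Alpha

variable {σ : Type*} [Finite σ] {R : Type*} [CommRing R]

/-- a power series in finitely many variables with vanishing constant coefficient lies in the
ideal generated by the variables. -/
theorem mem_span_range_X_of_constantCoeff_eq_zero (f : MvPowerSeries σ R)
    (hf : MvPowerSeries.constantCoeff f = 0) :
    f ∈ Ideal.span (Set.range (MvPowerSeries.X : σ → MvPowerSeries σ R)) := by
  classical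
  let e := (MvPowerSeries.toAdicCompletionAlgEquiv σ R).toRingEquiv
  have hmap : Ideal.map e (Ideal.span (Set.range MvPowerSeries.X)) =
      (MvPolynomial.idealOfVars σ R).map (algebraMap _ _) := by
    simp_rw [Ideal.map_span, ← Set.range_comp]
    congr 2; ext1
    simp [e, AdicCompletion.algebraMap_apply, ← MvPolynomial.coe_X,
      MvPowerSeries.toAdicCompletion_coe]
  have hef : e f ∈ Ideal.map e (Ideal.span (Set.range MvPowerSeries.X)) := by
    rw [hmap, ← AdicCompletion.ker_evalOneₐ_eq_map _ (MvPolynomial.idealOfVars_fg σ R)]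
    rw [RingHom.mem_ker]
    change AdicCompletion.evalOneₐ _ (MvPowerSeries.toAdicCompletion σ R f) = 0
    have h0 : MvPowerSeries.truncTotal 1 f = 0 := by
      ext x
      rw [MvPowerSeries.coeff_truncTotal_eq_ite]
      split_ifs with h
      · have hx : x = 0 := by
          have : x.degree = 0 := by omega
          exact (Finsupp.degree_eq_zero_iff x).1 this
        subst hx
        simpa using hf
      · simp
    have key : AdicCompletion.evalOneₐ _ (MvPowerSeries.toAdicCompletion σ R f) =
        Ideal.Quotient.factorₐ (MvPolynomial σ R) (by simp)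
          (MvPowerSeries.truncTotalAlgHom σ R 1 f) := rfl
    rw [key, MvPowerSeries.truncTotalAlgHom_apply, h0]
    simp
  obtain ⟨x, hx, hxe⟩ := (Ideal.mem_map_of_equiv e _).1 hef
  rwa [e.injective hxe] at hx

theorem maximalIdeal_eq_span_range_X (K : Type*) [Field K] :
    maximalIdeal (MvPowerSeries σ K) =
      Ideal.span (Set.range (MvPowerSeries.X : σ → MvPowerSeries σ K)) := by
  apply le_antisymm
  · intro f hf
    apply mem_span_range_X_of_constantCoeff_eq_zero
    by_contra h
    have hu : IsUnit f := MvPowerSeries.isUnit_iff_constantCoeff.2 (isUnit_iff_ne_zero.2 h)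
    exact (IsLocalRing.mem_maximalIdeal _).1 hf hu
  · rw [Ideal.span_le]
    rintro _ ⟨i, rfl⟩
    rw [SetLike.mem_coe, IsLocalRing.mem_maximalIdeal, mem_nonunits_iff,
      MvPowerSeries.isUnit_iff_constantCoeff]
    simp

/-- `K⟦x₁, …, x_n⟧` is complete for its maximal ideal. -/
theorem isAdicComplete_maximalIdeal_mvPowerSeries (K : Type*) [Field K] :
    IsAdicComplete (maximalIdeal (MvPowerSeries σ K)) (MvPowerSeries σ K) := by
  rw [maximalIdeal_eq_span_range_X]
  infer_instance

end Alpha

section Beta

open PowerSeries Polynomial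

variable {A : Type u} [CommRing A] [IsDomain A] [IsLocalRing A]

/-- A polynomial factor `a` of a distinguished polynomial `P = a * b` over a local domain whose
constant coefficient is a unit is a unit of `A[X]`. -/
theorem isUnit_of_mul_eq_distinguished {P a b : A[X]}
    (hP : P.IsDistinguishedAt (maximalIdeal A)) (hab : P = a * b)
    (ha : IsUnit (a.coeff 0)) : IsUnit a := by
  classical
  have hP0 : P ≠ 0 := hP.monic.ne_zero
  have ha0 : a ≠ 0 := fun h => hP0 (by rw [hab, h, zero_mul])
  have hb0 : b ≠ 0 := fun h => hP0 (by rw [hab, h, mul_zero])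
  set φ := Ideal.Quotient.mk (maximalIdeal A) with hφ
  have hmap : a.map φ * b.map φ = Polynomial.X ^ P.natDegree := by
    rw [← Polynomial.map_mul, ← hab, hP.map_eq_X_pow]
  have hφa : φ (a.coeff 0) ≠ 0 := by
    intro h
    rw [Ideal.Quotient.eq_zero_iff_mem] at h
    exact (IsLocalRing.mem_maximalIdeal _).1 h ha
  -- `a.map φ` is a unit
  have hunit : IsUnit (a.map φ) := by
    obtain ⟨i, -, hi⟩ := (dvd_prime_pow (Polynomial.prime_X (R := A ⧸ maximalIdeal A))
      P.natDegree).1 (Dvd.intro _ hmap)
    rcases Nat.eq_zero_or_pos i with rfl | hipos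
    · rw [pow_zero] at hi
      exact (associated_one_iff_isUnit).1 hi
    · exfalso
      have hX : (Polynomial.X : (A ⧸ maximalIdeal A)[X]) ∣ a.map φ :=
        (dvd_pow_self _ hipos.ne').trans hi.symm.dvd
      rw [Polynomial.X_dvd_iff, Polynomial.coeff_map] at hX
      exact hφa hX
  have hdega : (a.map φ).natDegree = 0 := Polynomial.natDegree_eq_zero_of_isUnit hunit
  have hdegb : (b.map φ).natDegree = P.natDegree := by
    have h1 := congrArg Polynomial.natDegree hmap
    rw [Polynomial.natDegree_mul hunit.ne_zero (fun h => by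
      rw [h, mul_zero] at hmap
      exact (pow_ne_zero _ Polynomial.X_ne_zero) hmap.symm), hdega, zero_add,
      Polynomial.natDegree_X_pow] at h1
    exact h1
  have hsum : P.natDegree = a.natDegree + b.natDegree := by
    rw [hab, Polynomial.natDegree_mul ha0 hb0]
  have hble : P.natDegree ≤ b.natDegree := hdegb ▸ Polynomial.natDegree_map_le
  have hdeg0 : a.natDegree = 0 := by omega
  rw [Polynomial.eq_C_of_natDegree_eq_zero hdeg0]
  exact Polynomial.isUnit_C.2 ha

/-- **(β)** Over a complete local UFD `A`, an irreducible power series in `A⟦X⟧` which is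
regular (nonzero modulo the maximal ideal of `A`) is prime. -/
theorem prime_of_irreducible_of_map_residue_ne_zero [IsAdicComplete (maximalIdeal A) A]
    [UniqueFactorizationMonoid A] {g : A⟦X⟧} (hirr : Irreducible g)
    (hg : g.map (residue A) ≠ 0) : Prime g := by
  obtain ⟨P, u, H⟩ := g.exists_isWeierstrassFactorization hg
  have hg0 : g ≠ 0 := hirr.ne_zero
  have hP0 : P ≠ 0 := H.isDistinguishedAt.monic.ne_zero
  have hassoc : Associated (P : A⟦X⟧) g := by
    obtain ⟨u', hu'⟩ := H.isUnit
    exact ⟨u', by rw [hu', ← H.eq_mul]⟩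
  have hPirrS : Irreducible (P : A⟦X⟧) := hassoc.symm.irreducible hirr
  have hcoe_unit : ∀ a : A[X], IsUnit (a : A⟦X⟧) → IsUnit (a.coeff 0) := fun a ha => by
    have := (PowerSeries.isUnit_iff_constantCoeff).1 ha
    simpa using this
  have hPirr : Irreducible P := by
    refine ⟨fun hu => hPirrS.not_isUnit ?_, fun a b hab => ?_⟩
    · exact hu.map (Polynomial.coeToPowerSeries.ringHom (R := A))
    · have hab' : (P : A⟦X⟧) = (a : A⟦X⟧) * (b : A⟦X⟧) := by
        rw [hab, Polynomial.coe_mul]
      rcases hPirrS.isUnit_or_isUnit hab' with h | h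
      · exact Or.inl (isUnit_of_mul_eq_distinguished H.isDistinguishedAt hab (hcoe_unit a h))
      · exact Or.inr (isUnit_of_mul_eq_distinguished H.isDistinguishedAt
          (hab.trans (mul_comm a b)) (hcoe_unit b h))
  have hPprime : Prime P := UniqueFactorizationMonoid.irreducible_iff_prime.1 hPirr
  have hIP : (Ideal.span {P}).IsPrime := (Ideal.span_singleton_prime hP0).2 hPprime
  have hdom : IsDomain (A[X] ⧸ Ideal.span {P}) := (Ideal.Quotient.isDomain_iff_prime _).2 hIP
  have hdom' : IsDomain (A⟦X⟧ ⧸ Ideal.span {g}) :=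
    H.algEquivQuotient.toRingEquiv.symm.toMulEquiv.isDomain _
  exact (Ideal.span_singleton_prime hg0).1 ((Ideal.Quotient.isDomain_iff_prime _).1 hdom')

end Beta

noncomputable section

section Gamma

variable (K : Type u) [Field K] (n : ℕ)

/-- restriction of a power series in `x₀, …, x_n` to the `x₀`-axis. -/
def axisHom : MvPowerSeries (Fin (n + 1)) K →+* PowerSeries K :=
  (PowerSeries.map (MvPowerSeries.constantCoeff (σ := Fin n) (R := K))).comp
    (MvPowerSeries.finSuccEquiv K n).toRingEquiv.toRingHom

variable {K n}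

theorem coeff_axisHom (h : MvPowerSeries (Fin (n + 1)) K) (k : ℕ) :
    PowerSeries.coeff k (axisHom K n h) = MvPowerSeries.coeff (Finsupp.single 0 k) h := by
  have h1 : PowerSeries.coeff k (axisHom K n h) =
      MvPowerSeries.coeff (0 : Fin n →₀ ℕ)
        (PowerSeries.coeff k (MvPowerSeries.finSuccEquiv K n h)) := by
    simp [axisHom]
  rw [h1, MvPowerSeries.coeff_coeff_finSuccEquiv]
  have : (Finsupp.cons k (0 : Fin n →₀ ℕ)) = Finsupp.single 0 k := by
    ext i
    refine Fin.cases ?_ (fun j => ?_) i
    · simp
    · simp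
  rw [this]

theorem axisHom_X_zero : axisHom K n (MvPowerSeries.X 0) = PowerSeries.X := by
  simp [axisHom]

theorem axisHom_X_succ (j : Fin n) : axisHom K n (MvPowerSeries.X j.succ) = 0 := by
  simp [axisHom]

theorem axisHom_C (r : K) : axisHom K n (MvPowerSeries.C r) = PowerSeries.C r := by
  simp [axisHom]

/-- the linear change of variables `x₀ ↦ c₀ x₀`, `x_i ↦ x_i + c_i x₀` (`i ≠ 0`). -/
def shear (c : Fin (n + 1) → K) : Fin (n + 1) → MvPowerSeries (Fin (n + 1)) K :=
  fun i => (if i = 0 then 0 else MvPowerSeries.X i) + MvPowerSeries.C (c i) * MvPowerSeries.X 0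

theorem hasSubst_shear (c : Fin (n + 1) → K) : MvPowerSeries.HasSubst (shear c) := by
  apply MvPowerSeries.hasSubst_of_constantCoeff_zero
  intro i
  simp only [shear, map_add, map_mul, MvPowerSeries.constantCoeff_X, mul_zero, add_zero]
  split_ifs <;> simp

theorem axisHom_shear (c : Fin (n + 1) → K) (i : Fin (n + 1)) :
    axisHom K n (shear c i) = PowerSeries.C (c i) * PowerSeries.X := by
  simp only [shear, map_add, map_mul, axisHom_C, axisHom_X_zero]
  refine Fin.cases ?_ (fun j => ?_) i
  · simp
  · simp [Fin.succ_ne_zero, axisHom_X_succ]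

theorem axisHom_prod_shear (c : Fin (n + 1) → K) (d : Fin (n + 1) →₀ ℕ) :
    axisHom K n (d.prod fun s e => shear c s ^ e) =
      PowerSeries.C (d.prod fun s e => c s ^ e) * PowerSeries.X ^ d.degree := by
  rw [map_finsuppProd]
  simp only [map_pow, axisHom_shear, mul_pow]
  rw [Finsupp.prod_mul]
  congr 1
  · simp [Finsupp.prod, map_prod]
  · simp only [Finsupp.prod, Finset.prod_pow_eq_pow_sum]
    rfl

theorem coeff_axisHom_subst_shear (c : Fin (n + 1) → K) (f : MvPowerSeries (Fin (n + 1)) K)
    (k : ℕ) :
    PowerSeries.coeff k (axisHom K n (MvPowerSeries.subst (shear c) f)) =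
      finsum (fun d : Fin (n + 1) →₀ ℕ => MvPowerSeries.coeff d f *
        (if d.degree = k then d.prod (fun s e => c s ^ e) else 0)) := by
  rw [coeff_axisHom, MvPowerSeries.coeff_subst (hasSubst_shear c)]
  congr 1
  funext d
  rw [smul_eq_mul, ← coeff_axisHom, axisHom_prod_shear, PowerSeries.coeff_C_mul,
    PowerSeries.coeff_X_pow]
  split_ifs with h1 h2 h2
  · simp
  · exact absurd h1.symm h2
  · exact absurd h2.symm h1
  · simp

/-- the homogeneous component of degree `k` as a polynomial. -/
def homPart (f : MvPowerSeries (Fin (n + 1)) K) (k : ℕ) : MvPolynomial (Fin (n + 1)) K :=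
  MvPowerSeries.truncTotal (k + 1) f - MvPowerSeries.truncTotal k f

theorem coeff_homPart (f : MvPowerSeries (Fin (n + 1)) K) (k : ℕ) (d : Fin (n + 1) →₀ ℕ) :
    (homPart f k).coeff d = if d.degree = k then MvPowerSeries.coeff d f else 0 := by
  rw [homPart, MvPolynomial.coeff_sub, MvPowerSeries.coeff_truncTotal_eq_ite,
    MvPowerSeries.coeff_truncTotal_eq_ite]
  by_cases h1 : d.degree = k
  · rw [if_pos h1, if_pos (by omega), if_neg (by omega), sub_zero]
  · rw [if_neg h1]
    by_cases h2 : d.degree < k
    · rw [if_pos (by omega), if_pos h2, sub_self]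
    · rw [if_neg (by omega), if_neg h2, sub_self]

theorem coeff_axisHom_subst_shear_eq_eval (c : Fin (n + 1) → K)
    (f : MvPowerSeries (Fin (n + 1)) K) (k : ℕ) :
    PowerSeries.coeff k (axisHom K n (MvPowerSeries.subst (shear c) f)) =
      MvPolynomial.eval c (homPart f k) := by
  rw [coeff_axisHom_subst_shear, MvPolynomial.eval_eq]
  rw [finsum_eq_sum_of_support_subset (s := (homPart f k).support)]
  · refine Finset.sum_congr rfl fun d _ => ?_
    rw [coeff_homPart]
    split_ifs with h
    · rfl
    · simp
  · intro d hd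
    rw [Function.mem_support] at hd
    rw [Finset.mem_coe, MvPolynomial.mem_support_iff, coeff_homPart]
    by_cases h : d.degree = k
    · rw [if_pos h]
      rw [if_pos h] at hd
      exact left_ne_zero_of_mul hd
    · rw [if_neg h, mul_zero] at hd
      exact absurd rfl hd

theorem exists_shear_regular [Infinite K] (f : MvPowerSeries (Fin (n + 1)) K) (hf : f ≠ 0) :
    ∃ c : Fin (n + 1) → K, c 0 ≠ 0 ∧ axisHom K n (MvPowerSeries.subst (shear c) f) ≠ 0 := by
  obtain ⟨d, hd⟩ : ∃ d, MvPowerSeries.coeff d f ≠ 0 := by
    by_contra h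
    simp only [not_exists, not_not] at h
    exact hf (MvPowerSeries.ext fun d => by simpa using h d)
  have hQ : homPart f d.degree ≠ 0 := by
    intro h
    have := congrArg (MvPolynomial.coeff d) h
    rw [coeff_homPart, if_pos rfl, MvPolynomial.coeff_zero] at this
    exact hd this
  have hQX : homPart f d.degree * MvPolynomial.X 0 ≠ 0 :=
    mul_ne_zero hQ (MvPolynomial.X_ne_zero 0)
  obtain ⟨c, hc⟩ : ∃ c : Fin (n + 1) → K,
      MvPolynomial.eval c (homPart f d.degree * MvPolynomial.X 0) ≠ 0 := by
    by_contra h
    simp only [not_exists, not_not] at h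
    exact hQX (MvPolynomial.funext fun c => by rw [h c, map_zero])
  rw [map_mul, MvPolynomial.eval_X] at hc
  refine ⟨c, right_ne_zero_of_mul hc, fun h0 => ?_⟩
  have := coeff_axisHom_subst_shear_eq_eval c f d.degree
  rw [h0, map_zero] at this
  exact left_ne_zero_of_mul hc this.symm


/-! ### the shear is an automorphism -/

/-- parameters of the inverse shear. -/
def shearInv (c : Fin (n + 1) → K) : Fin (n + 1) → K :=
  fun i => if i = 0 then (c 0)⁻¹ else -c i * (c 0)⁻¹

theorem shearInv_zero (c : Fin (n + 1) → K) : shearInv c 0 = (c 0)⁻¹ := by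
  simp [shearInv]

theorem shearInv_shearInv (c : Fin (n + 1) → K) (hc : c 0 ≠ 0) :
    shearInv (shearInv c) = c := by
  funext i
  by_cases hi : i = 0
  · subst hi
    simp [shearInv]
  · simp only [shearInv, if_neg hi, if_true, inv_inv]
    field_simp

theorem subst_shear_shear_shearInv (c : Fin (n + 1) → K) (hc : c 0 ≠ 0) (i : Fin (n + 1)) :
    MvPowerSeries.subst (shear c) (shear (shearInv c) i) = MvPowerSeries.X i := by
  have hs := hasSubst_shear c
  have hX : ∀ j, MvPowerSeries.subst (shear c) (MvPowerSeries.X j : MvPowerSeries _ K) =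
      shear c j := fun j => MvPowerSeries.subst_X hs j
  have hmul : ∀ (r : K) (j : Fin (n + 1)),
      MvPowerSeries.subst (shear c) (MvPowerSeries.C r * MvPowerSeries.X j :
        MvPowerSeries (Fin (n + 1)) K) = MvPowerSeries.C r * shear c j := by
    intro r j
    rw [MvPowerSeries.subst_mul hs, hX, MvPowerSeries.subst_C]
  by_cases hi : i = 0
  · subst hi
    have : shear (shearInv c) (0 : Fin (n + 1)) =
        MvPowerSeries.C (c 0)⁻¹ * MvPowerSeries.X 0 := by
      simp [shear, shearInv]
    rw [this, hmul]
    simp only [shear, if_true, zero_add]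
    rw [← mul_assoc, ← map_mul, inv_mul_cancel₀ hc, map_one, one_mul]
  · have : shear (shearInv c) i =
        MvPowerSeries.X i + MvPowerSeries.C (-c i * (c 0)⁻¹) * MvPowerSeries.X 0 := by
      simp [shear, shearInv, hi]
    rw [this, MvPowerSeries.subst_add hs, hX, hmul]
    simp only [shear, if_neg hi, if_true, zero_add]
    have h1 : -c i * (c 0)⁻¹ * c 0 = -c i := by
      rw [mul_assoc, inv_mul_cancel₀ hc, mul_one]
    rw [← mul_assoc, ← map_mul, h1, map_neg, neg_mul, add_neg_cancel_right]

theorem subst_shear_subst_shearInv (c : Fin (n + 1) → K) (hc : c 0 ≠ 0)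
    (f : MvPowerSeries (Fin (n + 1)) K) :
    MvPowerSeries.subst (shear c) (MvPowerSeries.subst (shear (shearInv c)) f) = f := by
  rw [MvPowerSeries.subst_comp_subst_apply (hasSubst_shear _) (hasSubst_shear _)]
  have : (fun s => MvPowerSeries.subst (shear c) (shear (shearInv c) s)) =
      (MvPowerSeries.X : Fin (n + 1) → MvPowerSeries (Fin (n + 1)) K) :=
    funext fun s => subst_shear_shear_shearInv c hc s
  rw [this, MvPowerSeries.subst_self]
  rfl

theorem subst_shearInv_subst_shear (c : Fin (n + 1) → K) (hc : c 0 ≠ 0)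
    (f : MvPowerSeries (Fin (n + 1)) K) :
    MvPowerSeries.subst (shear (shearInv c)) (MvPowerSeries.subst (shear c) f) = f := by
  have hc' : shearInv c 0 ≠ 0 := by
    rw [shearInv_zero]
    exact inv_ne_zero hc
  have := subst_shear_subst_shearInv (shearInv c) hc' f
  rwa [shearInv_shearInv c hc] at this

/-- the shear as a ring automorphism of `K⟦x₀, …, x_n⟧`. -/
def shearEquiv (c : Fin (n + 1) → K) (hc : c 0 ≠ 0) :
    MvPowerSeries (Fin (n + 1)) K ≃+* MvPowerSeries (Fin (n + 1)) K :=
  RingEquiv.ofRingHom (MvPowerSeries.substAlgHom (hasSubst_shear c)).toRingHom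
    (MvPowerSeries.substAlgHom (hasSubst_shear (shearInv c))).toRingHom
    (RingHom.ext fun f => by
      change MvPowerSeries.substAlgHom (hasSubst_shear c)
        (MvPowerSeries.substAlgHom (hasSubst_shear (shearInv c)) f) = f
      rw [MvPowerSeries.coe_substAlgHom, MvPowerSeries.coe_substAlgHom]
      exact subst_shear_subst_shearInv c hc f)
    (RingHom.ext fun f => by
      change MvPowerSeries.substAlgHom (hasSubst_shear (shearInv c))
        (MvPowerSeries.substAlgHom (hasSubst_shear c) f) = f
      rw [MvPowerSeries.coe_substAlgHom, MvPowerSeries.coe_substAlgHom]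
      exact subst_shearInv_subst_shear c hc f)

theorem shearEquiv_apply (c : Fin (n + 1) → K) (hc : c 0 ≠ 0)
    (f : MvPowerSeries (Fin (n + 1)) K) :
    shearEquiv c hc f = MvPowerSeries.subst (shear c) f := by
  change MvPowerSeries.substAlgHom (hasSubst_shear c) f = _
  rw [MvPowerSeries.coe_substAlgHom]

/-- regularity bridge: a series which is nonzero on the `x₀`-axis is regular in `x₀`, i.e. its
image in `(K⟦x₁, …, x_n⟧)⟦x₀⟧` is nonzero modulo the maximal ideal of the coefficient ring. -/
theorem map_residue_finSuccEquiv_ne_zero (h : MvPowerSeries (Fin (n + 1)) K)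
    (hh : axisHom K n h ≠ 0) :
    (MvPowerSeries.finSuccEquiv K n h).map (residue (MvPowerSeries (Fin n) K)) ≠ 0 := by
  intro h0
  apply hh
  ext k
  have hk := congrArg (PowerSeries.coeff k) h0
  rw [PowerSeries.coeff_map, map_zero, residue_eq_zero_iff] at hk
  have hnu : ¬ IsUnit (PowerSeries.coeff k (MvPowerSeries.finSuccEquiv K n h)) :=
    (IsLocalRing.mem_maximalIdeal _).1 hk
  rw [MvPowerSeries.isUnit_iff_constantCoeff, isUnit_iff_ne_zero, not_not] at hnu
  rw [map_zero]
  change PowerSeries.coeff k (PowerSeries.map MvPowerSeries.constantCoeff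
    (MvPowerSeries.finSuccEquiv K n h)) = 0
  rw [PowerSeries.coeff_map]
  exact hnu

end Gamma

section Delta

variable (K : Type u) [Field K] [Infinite K]

/-- **U1 (Fin-indexed form).** For an infinite field `K`, the power series ring
`K⟦x₁, …, x_n⟧` is a unique factorisation domain. -/
theorem uniqueFactorizationMonoid_mvPowerSeries_fin (n : ℕ) :
    UniqueFactorizationMonoid (MvPowerSeries (Fin n) K) := by
  induction n with
  | zero =>
    exact MulEquiv.uniqueFactorizationMonoid
      (MvPowerSeries.isEmptyEquiv (Fin 0) K).symm.toMulEquiv inferInstance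
  | succ n ih =>
    have := ih
    have : IsDomain (MvPowerSeries (Fin n) K) := NoZeroDivisors.to_isDomain _
    have : IsDomain (MvPowerSeries (Fin (n + 1)) K) := NoZeroDivisors.to_isDomain _
    have : IsAdicComplete (maximalIdeal (MvPowerSeries (Fin n) K)) (MvPowerSeries (Fin n) K) :=
      isAdicComplete_maximalIdeal_mvPowerSeries K
    have : WfDvdMonoid (MvPowerSeries (Fin (n + 1)) K) := IsNoetherianRing.wfDvdMonoid
    refine { (inferInstance : WfDvdMonoid (MvPowerSeries (Fin (n + 1)) K)) with
      irreducible_iff_prime := fun {f} => ⟨fun hf => ?_, Prime.irreducible⟩ }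
    obtain ⟨c, hc, hreg⟩ := exists_shear_regular f hf.ne_zero
    let e : MvPowerSeries (Fin (n + 1)) K ≃+* PowerSeries (MvPowerSeries (Fin n) K) :=
      (shearEquiv c hc).trans (MvPowerSeries.finSuccEquiv K n).toRingEquiv
    have he : e f = MvPowerSeries.finSuccEquiv K n (MvPowerSeries.subst (shear c) f) := by
      change MvPowerSeries.finSuccEquiv K n (shearEquiv c hc f) = _
      rw [shearEquiv_apply]
    have hirr : Irreducible (e f) := (MulEquiv.irreducible_iff e.toMulEquiv).2 hf
    have hprime : Prime (e f) := by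
      apply prime_of_irreducible_of_map_residue_ne_zero hirr
      rw [he]
      exact map_residue_finSuccEquiv_ne_zero _ hreg
    exact (MulEquiv.prime_iff e.toMulEquiv).1 hprime

/-- **U1.** For an infinite field `K` and a finite index type `σ`, the power series ring
`MvPowerSeries σ K` is a unique factorisation domain. -/
theorem uniqueFactorizationMonoid_mvPowerSeries (σ : Type*) [Finite σ] :
    UniqueFactorizationMonoid (MvPowerSeries σ K) := by
  obtain ⟨n, ⟨e⟩⟩ := Finite.exists_equiv_fin σ
  have := uniqueFactorizationMonoid_mvPowerSeries_fin K n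
  exact MulEquiv.uniqueFactorizationMonoid
    (MvPowerSeries.renameEquiv K e).symm.toMulEquiv inferInstance

end Delta

end

end Fermat.Agent.S26.H445
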