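import Fermat.Agent.S26.H445.UFDSmooth
import Fermat.Agent.S26.H445.UFDLocalization

/-!
# S26 / leaf UFD : the local rings of a smooth scheme over an algebraically closed field are
unique factorisation domains (helper445)

* `ufd_of_smooth_localization_atPrime` : `B` smooth over `K`, `p` ANY prime of `B`, `R = B_p`;
* `ufd_stalk_of_smooth` : `f : X ⟶ Spec K` smooth, `x : X` ANY point: `O_{X,x}` is a UFD;
* `isPrincipal_of_height_eq_one_stalk` : height-one primes of `O_{X,x}` are principal.
-/

set_option autoImplicit false

universe u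

open AlgebraicGeometry CategoryTheory

namespace Fermat.Agent.S26.H445

/-- The localisation of a smooth algebra over an algebraically closed field at ANY prime ideal
is a unique factorisation domain. -/
theorem ufd_of_smooth_localization_atPrime (K : Type u) [Field K] [IsAlgClosed K] (B : Type u)
    [CommRing B] [Algebra K B] [Algebra.Smooth K B] (p : Ideal B) [hp : p.IsPrime] (R : Type u)
    [CommRing R] [Algebra B R] [IsLocalization.AtPrime R p] :
    IsDomain R ∧ UniqueFactorizationMonoid R := by
  obtain ⟨m, hm, hpm⟩ := Ideal.exists_le_maximal p hp.ne_top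
  obtain ⟨hdom, hufd⟩ := ufd_of_smooth_localization K B m (Localization.AtPrime m)
  have hle : m.primeCompl ≤ p.primeCompl := fun x hx hxp => hx (hpm hxp)
  let : Algebra (Localization.AtPrime m) R :=
    IsLocalization.localizationAlgebraOfSubmonoidLe (Localization.AtPrime m) R
      m.primeCompl p.primeCompl hle
  have : IsScalarTower B (Localization.AtPrime m) R :=
    IsLocalization.localization_isScalarTower_of_submonoid_le (Localization.AtPrime m) R
      m.primeCompl p.primeCompl hle
  have : IsLocalization (p.primeCompl.map (algebraMap B (Localization.AtPrime m))) R :=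
    IsLocalization.isLocalization_of_submonoid_le (Localization.AtPrime m) R
      m.primeCompl p.primeCompl hle
  refine ufd_of_isLocalization (p.primeCompl.map (algebraMap B (Localization.AtPrime m))) ?_ R
  rintro _ ⟨s, hs, rfl⟩
  rw [mem_nonZeroDivisors_iff_ne_zero]
  intro h0
  rw [IsLocalization.map_eq_zero_iff m.primeCompl] at h0
  obtain ⟨t, ht⟩ := h0
  have hts : (t : B) * s ∈ p := by rw [ht]; exact p.zero_mem
  rcases hp.mem_or_mem hts with h | h
  · exact t.2 (hpm h)
  · exact hs h

/-- **UFD, scheme form.** The local ring of a smooth scheme over an algebraically closed field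
at ANY point is a unique factorisation domain. -/
theorem ufd_stalk_of_smooth (K : Type u) [Field K] [IsAlgClosed K] {X : Scheme.{u}}
    (f : X ⟶ Spec (CommRingCat.of K)) [Smooth f] (x : X) :
    IsDomain (X.presheaf.stalk x) ∧ UniqueFactorizationMonoid (X.presheaf.stalk x) := by
  obtain ⟨_, ⟨V, hV : IsAffineOpen V, rfl⟩, hxV, -⟩ :=
    X.isBasis_affineOpens.exists_subset_of_mem_open (Set.mem_univ x) isOpen_univ
  have hsm : (f.appLE ⊤ V le_top).hom.Smooth :=
    Smooth.smooth_appLE f (isAffineOpen_top _) hV le_top
  have hiso : ((Scheme.ΓSpecIso (CommRingCat.of K)).inv.hom).Smooth :=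
    RingHom.Smooth.of_bijective
      (ConcreteCategory.bijective_of_isIso (Scheme.ΓSpecIso (CommRingCat.of K)).inv)
  have hφ : ((f.appLE ⊤ V le_top).hom.comp (Scheme.ΓSpecIso (CommRingCat.of K)).inv.hom).Smooth :=
    hiso.comp hsm
  let : Algebra K Γ(X, V) :=
    ((f.appLE ⊤ V le_top).hom.comp (Scheme.ΓSpecIso (CommRingCat.of K)).inv.hom).toAlgebra
  have : Algebra.Smooth K Γ(X, V) := hφ
  let : Algebra Γ(X, V) (X.presheaf.stalk x) :=
    TopCat.Presheaf.algebra_section_stalk X.presheaf ⟨x, hxV⟩
  have : IsLocalization.AtPrime (X.presheaf.stalk x) (hV.primeIdealOf ⟨x, hxV⟩).asIdeal :=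
    hV.isLocalization_stalk ⟨x, hxV⟩
  exact ufd_of_smooth_localization_atPrime K Γ(X, V) (hV.primeIdealOf ⟨x, hxV⟩).asIdeal
    (X.presheaf.stalk x)

/-- Every prime ideal of height one of the local ring of a smooth scheme over an algebraically
closed field (at any point) is principal. -/
theorem isPrincipal_of_height_eq_one_stalk (K : Type u) [Field K] [IsAlgClosed K]
    {X : Scheme.{u}} (f : X ⟶ Spec (CommRingCat.of K)) [Smooth f] (x : X)
    (P : Ideal (X.presheaf.stalk x)) [P.IsPrime] (hP : P.height = 1) : P.IsPrincipal := by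
  obtain ⟨hdom, hufd⟩ := ufd_stalk_of_smooth K f x
  exact Fermat.Agent.S26.H925.isPrincipal_of_height_eq_one_of_ufd P hP

/-- Form with an explicit hypothesis `SmoothOfRelativeDimension n f` (the shape of
`AbVar.smoothDim`). -/
theorem ufd_stalk_of_smoothOfRelativeDimension (K : Type u) [Field K] [IsAlgClosed K]
    {X : Scheme.{u}} (f : X ⟶ Spec (CommRingCat.of K)) (n : ℕ)
    (h : SmoothOfRelativeDimension n f) (x : X) :
    IsDomain (X.presheaf.stalk x) ∧ UniqueFactorizationMonoid (X.presheaf.stalk x) := by
  have : Smooth f := SmoothOfRelativeDimension.smooth n f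
  exact ufd_stalk_of_smooth K f x

end Fermat.Agent.S26.H445
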